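import Mathlib
import Fermat.Agent.MUL.E.Desc.Kp.FTT

section MergeWrap_Lib_VarChange_Formula -- from Lib/VarChange/Formula.lean

/-!
# Change of variables on a Weierstrass curve: formulas

For `C : VariableChange K` over a field `K`, the curve `C • W` is `W` in the coordinates
`(x, y) = (u² x' + r, u³ y' + u² s x' + t)`.  We show that `(x', y') ↦ (x, y)` maps nonsingular
points of `C • W` to nonsingular points of `W` and is compatible with negation, slopes and the
addition formulas.
-/

set_option autoImplicit false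

namespace Fermat.Agent.VarChange

open WeierstrassCurve WeierstrassCurve.Affine

variable {K : Type*} [Field K]

/-- The `x`-coordinate on `W` of the point with coordinates `(x, y)` on `C • W`. -/
def vcX (C : VariableChange K) (x : K) : K := (C.u : K) ^ 2 * x + C.r

/-- The `y`-coordinate on `W` of the point with coordinates `(x, y)` on `C • W`. -/
def vcY (C : VariableChange K) (x y : K) : K := (C.u : K) ^ 3 * y + (C.u : K) ^ 2 * C.s * x + C.t

variable (C : VariableChange K) (W : WeierstrassCurve K)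

theorem vc_u_ne_zero : (C.u : K) ≠ 0 := C.u.ne_zero

theorem vcX_injective : Function.Injective (vcX C) := by
  intro x x' h
  have hu := vc_u_ne_zero C
  simp only [vcX] at h
  have h2 : (C.u : K) ^ 2 * x = (C.u : K) ^ 2 * x' := add_right_cancel h
  exact mul_left_cancel₀ (pow_ne_zero 2 hu) h2

theorem vcY_injective (x : K) : Function.Injective (vcY C x) := by
  intro y y' h
  have hu := vc_u_ne_zero C
  simp only [vcY] at h
  have h2 : (C.u : K) ^ 3 * y = (C.u : K) ^ 3 * y' := add_right_cancel (add_right_cancel h)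
  exact mul_left_cancel₀ (pow_ne_zero 3 hu) h2

/-- The Weierstrass polynomial transforms by the factor `u⁶`. -/
theorem vc_equation_aux (x y : K) :
    (vcY C x y) ^ 2 + W.a₁ * vcX C x * vcY C x y + W.a₃ * vcY C x y
        - ((vcX C x) ^ 3 + W.a₂ * (vcX C x) ^ 2 + W.a₄ * vcX C x + W.a₆) =
      (C.u : K) ^ 6 * (y ^ 2 + (C • W).a₁ * x * y + (C • W).a₃ * y
        - (x ^ 3 + (C • W).a₂ * x ^ 2 + (C • W).a₄ * x + (C • W).a₆)) := by
  have hu := vc_u_ne_zero C
  simp only [variableChange_a₁, variableChange_a₂, variableChange_a₃, variableChange_a₄,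
    variableChange_a₆, Units.val_inv_eq_inv_val, vcX, vcY]
  field_simp
  ring

theorem vc_equation_iff (x y : K) :
    (C • W).toAffine.Equation x y ↔ W.toAffine.Equation (vcX C x) (vcY C x y) := by
  have hu := vc_u_ne_zero C
  rw [Affine.equation_iff, Affine.equation_iff, ← sub_eq_zero, ← sub_eq_zero (b := _ + _)]
  rw [vc_equation_aux]
  constructor
  · intro h; rw [h, mul_zero]
  · intro h
    rcases mul_eq_zero.mp h with h | h
    · exact absurd h (pow_ne_zero 6 hu)
    · exact h

/-- `∂/∂y`. -/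
theorem vc_B (x y : K) :
    2 * vcY C x y + W.a₁ * vcX C x + W.a₃ = (C.u : K) ^ 3 * (2 * y + (C • W).a₁ * x + (C • W).a₃) := by
  have hu := vc_u_ne_zero C
  simp only [variableChange_a₁, variableChange_a₃, Units.val_inv_eq_inv_val, vcX, vcY]
  field_simp
  ring

/-- `∂/∂x`. -/
theorem vc_A (x y : K) :
    W.a₁ * vcY C x y - (3 * (vcX C x) ^ 2 + 2 * W.a₂ * vcX C x + W.a₄) =
      (C.u : K) ^ 4 * ((C • W).a₁ * y - (3 * x ^ 2 + 2 * (C • W).a₂ * x + (C • W).a₄))
        - C.s * ((C.u : K) ^ 3 * (2 * y + (C • W).a₁ * x + (C • W).a₃)) := by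
  have hu := vc_u_ne_zero C
  simp only [variableChange_a₁, variableChange_a₂, variableChange_a₃, variableChange_a₄,
    Units.val_inv_eq_inv_val, vcX, vcY]
  field_simp
  ring

theorem vc_nonsingular_iff (x y : K) :
    (C • W).toAffine.Nonsingular x y ↔ W.toAffine.Nonsingular (vcX C x) (vcY C x y) := by
  have hu := vc_u_ne_zero C
  rw [Affine.nonsingular_iff', Affine.nonsingular_iff', vc_equation_iff]
  refine and_congr_right fun _ => ?_
  rw [vc_A, vc_B]
  constructor
  · rintro (h | h)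
    · by_cases hB : 2 * y + (C • W).a₁ * x + (C • W).a₃ = 0
      · left
        rw [hB, mul_zero, mul_zero, sub_zero]
        exact mul_ne_zero (pow_ne_zero 4 hu) h
      · right
        exact mul_ne_zero (pow_ne_zero 3 hu) hB
    · right
      exact mul_ne_zero (pow_ne_zero 3 hu) h
  · rintro (h | h)
    · by_cases hB : 2 * y + (C • W).a₁ * x + (C • W).a₃ = 0
      · left
        rw [hB, mul_zero, mul_zero, sub_zero] at h
        exact right_ne_zero_of_mul h
      · right
        exact hB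
    · right
      exact right_ne_zero_of_mul h

theorem vc_negY (x y : K) :
    W.toAffine.negY (vcX C x) (vcY C x y) = vcY C x ((C • W).toAffine.negY x y) := by
  have hu := vc_u_ne_zero C
  simp only [Affine.negY, variableChange_a₁, variableChange_a₃, Units.val_inv_eq_inv_val, vcX, vcY]
  field_simp
  ring

theorem vc_addX (x₁ x₂ L : K) :
    W.toAffine.addX (vcX C x₁) (vcX C x₂) ((C.u : K) * L + C.s) =
      vcX C ((C • W).toAffine.addX x₁ x₂ L) := by
  have hu := vc_u_ne_zero C
  simp only [Affine.addX, variableChange_a₁, variableChange_a₂, Units.val_inv_eq_inv_val, vcX]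
  field_simp
  ring

theorem vc_negAddY (x₁ x₂ y₁ L : K) :
    W.toAffine.negAddY (vcX C x₁) (vcX C x₂) (vcY C x₁ y₁) ((C.u : K) * L + C.s) =
      vcY C ((C • W).toAffine.addX x₁ x₂ L) ((C • W).toAffine.negAddY x₁ x₂ y₁ L) := by
  have hu := vc_u_ne_zero C
  rw [Affine.negAddY, vc_addX]
  simp only [Affine.negAddY, vcX, vcY]
  ring

theorem vc_addY (x₁ x₂ y₁ L : K) :
    W.toAffine.addY (vcX C x₁) (vcX C x₂) (vcY C x₁ y₁) ((C.u : K) * L + C.s) =
      vcY C ((C • W).toAffine.addX x₁ x₂ L) ((C • W).toAffine.addY x₁ x₂ y₁ L) := by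
  rw [Affine.addY, vc_negAddY, vc_addX, vc_negY]
  rfl

end Fermat.Agent.VarChange
end MergeWrap_Lib_VarChange_Formula

section MergeWrap_Lib_VarChange_Point -- from Lib/VarChange/Point.lean

/-!
# Change of variables on a Weierstrass curve: the group homomorphism on points

For curves `W₁`, `W₂` over a field `K` with `W₂ = C • W₁`, the map
`(x, y) ↦ (u² x + r, u³ y + u² s x + t)` is an injective group homomorphism
`vcHom : W₂.Point →+ W₁.Point`.
-/

set_option autoImplicit false
set_option linter.unusedSectionVars false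

namespace Fermat.Agent.VarChange

open WeierstrassCurve WeierstrassCurve.Affine

variable {K : Type*} [Field K] [DecidableEq K]

section Slope

variable (C : VariableChange K) (W : WeierstrassCurve K)

theorem vc_slope {x₁ x₂ y₁ y₂ : K} (h₁ : (C • W).toAffine.Equation x₁ y₁)
    (h₂ : (C • W).toAffine.Equation x₂ y₂)
    (hxy : ¬(x₁ = x₂ ∧ y₁ = (C • W).toAffine.negY x₂ y₂)) :
    W.toAffine.slope (vcX C x₁) (vcX C x₂) (vcY C x₁ y₁) (vcY C x₂ y₂) =
      (C.u : K) * (C • W).toAffine.slope x₁ x₂ y₁ y₂ + C.s := by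
  have hu := vc_u_ne_zero C
  by_cases hx : x₁ = x₂
  · subst hx
    have hy : y₁ ≠ (C • W).toAffine.negY x₁ y₂ := fun h => hxy ⟨rfl, h⟩
    have hyy : y₁ = y₂ := Affine.Y_eq_of_Y_ne h₁ h₂ rfl hy
    subst hyy
    have hy' : vcY C x₁ y₁ ≠ W.toAffine.negY (vcX C x₁) (vcY C x₁ y₁) := by
      rw [vc_negY]
      exact fun h => hy (vcY_injective C x₁ h)
    rw [Affine.slope_of_Y_ne rfl hy, Affine.slope_of_Y_ne rfl hy']
    have hB := vc_B C W x₁ y₁
    have hA := vc_A C W x₁ y₁
    have hden' : y₁ - (C • W).toAffine.negY x₁ y₁ = 2 * y₁ + (C • W).a₁ * x₁ + (C • W).a₃ := by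
      simp only [Affine.negY]; ring
    have hden : vcY C x₁ y₁ - W.toAffine.negY (vcX C x₁) (vcY C x₁ y₁) =
        2 * vcY C x₁ y₁ + W.a₁ * vcX C x₁ + W.a₃ := by
      simp only [Affine.negY]; ring
    have hne' : 2 * y₁ + (C • W).a₁ * x₁ + (C • W).a₃ ≠ 0 := by
      rw [← hden']
      exact sub_ne_zero.mpr hy
    have hne : (C.u : K) ^ 3 * (2 * y₁ + (C • W).a₁ * x₁ + (C • W).a₃) ≠ 0 :=
      mul_ne_zero (pow_ne_zero 3 hu) hne'
    have hnum : 3 * (vcX C x₁) ^ 2 + 2 * W.a₂ * vcX C x₁ + W.a₄ - W.a₁ * vcY C x₁ y₁ =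
        (C.u : K) ^ 4 * (3 * x₁ ^ 2 + 2 * (C • W).a₂ * x₁ + (C • W).a₄ - (C • W).a₁ * y₁)
          + C.s * ((C.u : K) ^ 3 * (2 * y₁ + (C • W).a₁ * x₁ + (C • W).a₃)) := by
      linear_combination -hA
    rw [hden, hden', hB, hnum]
    generalize 2 * y₁ + (C • W).a₁ * x₁ + (C • W).a₃ = B' at hne hne'
    generalize 3 * x₁ ^ 2 + 2 * (C • W).a₂ * x₁ + (C • W).a₄ - (C • W).a₁ * y₁ = N'
    field_simp
  · have hx' : vcX C x₁ ≠ vcX C x₂ := fun h => hx (vcX_injective C h)
    rw [Affine.slope_of_X_ne hx, Affine.slope_of_X_ne hx']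
    have h1 : x₁ - x₂ ≠ 0 := sub_ne_zero.mpr hx
    have h2 : vcX C x₁ - vcX C x₂ ≠ 0 := sub_ne_zero.mpr hx'
    rw [div_eq_iff h2]
    simp only [vcX, vcY]
    field_simp
    ring

end Slope

section Hom

variable {W₁ W₂ : Affine K} (C : VariableChange K) (h : W₂ = C • W₁)

omit [DecidableEq K] in
include h in
theorem vc_nonsingular_of_eq {x y : K} (hxy : W₂.Nonsingular x y) :
    W₁.Nonsingular (vcX C x) (vcY C x y) := by
  subst h
  exact (vc_nonsingular_iff C W₁ x y).mp hxy

/-- The map on points induced by a change of variables. -/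
def vcFun : W₂.Point → W₁.Point
  | .zero => .zero
  | .some x y hxy => .some (vcX C x) (vcY C x y) (vc_nonsingular_of_eq C h hxy)

@[simp] theorem vcFun_zero : vcFun C h (0 : W₂.Point) = 0 := rfl

@[simp] theorem vcFun_some {x y : K} (hxy : W₂.Nonsingular x y) :
    vcFun C h (.some x y hxy) = .some (vcX C x) (vcY C x y) (vc_nonsingular_of_eq C h hxy) := rfl

theorem vcFun_injective : Function.Injective (vcFun C h) := by
  rintro (_ | ⟨x, y, hxy⟩) (_ | ⟨x', y', hxy'⟩) hPQ
  · rfl
  · exact absurd hPQ (by simp [vcFun])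
  · exact absurd hPQ (by simp [vcFun])
  · simp only [vcFun, Point.some.injEq] at hPQ
    obtain ⟨hx, hy⟩ := hPQ
    have hx' := vcX_injective C hx
    subst hx'
    have hy' := vcY_injective C x hy
    subst hy'
    rfl

theorem vcFun_add (P Q : W₂.Point) : vcFun C h (P + Q) = vcFun C h P + vcFun C h Q := by
  subst h
  rcases P with _ | ⟨x₁, y₁, h₁⟩
  · change vcFun C rfl (0 + Q) = 0 + vcFun C rfl Q
    rw [zero_add, zero_add]
  rcases Q with _ | ⟨x₂, y₂, h₂⟩
  · change vcFun C rfl (Point.some x₁ y₁ h₁ + 0) = vcFun C rfl (Point.some x₁ y₁ h₁) + 0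
    rw [add_zero, add_zero]
  by_cases hxy : x₁ = x₂ ∧ y₁ = (C • W₁).toAffine.negY x₂ y₂
  · obtain ⟨hx, hy⟩ := hxy
    rw [Point.add_of_Y_eq hx hy, vcFun_zero, vcFun_some, vcFun_some]
    symm
    apply Point.add_of_Y_eq
    · rw [hx]
    · rw [vc_negY, hy, hx]
  · have hxy' : ¬(vcX C x₁ = vcX C x₂ ∧
        vcY C x₁ y₁ = W₁.toAffine.negY (vcX C x₂) (vcY C x₂ y₂)) := by
      rintro ⟨hx, hy⟩
      have hx' := vcX_injective C hx
      subst hx'
      rw [vc_negY] at hy
      exact hxy ⟨rfl, vcY_injective C x₁ hy⟩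
    rw [Point.add_some hxy, vcFun_some, vcFun_some, vcFun_some, Point.add_some hxy']
    simp only [Point.some.injEq]
    rw [vc_slope C W₁ h₁.1 h₂.1 hxy]
    exact ⟨(vc_addX C W₁ x₁ x₂ _).symm, (vc_addY C W₁ x₁ x₂ y₁ _).symm⟩

/-- The injective group homomorphism on points induced by a change of variables. -/
def vcHom : W₂.Point →+ W₁.Point where
  toFun := vcFun C h
  map_zero' := rfl
  map_add' := vcFun_add C h

@[simp] theorem vcHom_apply (P : W₂.Point) : vcHom C h P = vcFun C h P := rfl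

theorem vcHom_injective : Function.Injective (vcHom C h) := vcFun_injective C h

end Hom

end Fermat.Agent.VarChange
end MergeWrap_Lib_VarChange_Point
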